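import Fermat.Agent.S59.H314.TwT

/-!
# S59, cell TW: the hypotheses (T) and (R) of TW-ALG from POINTWISE statements  (helper314)

Mathlib only.  `T` a Noetherian ring, `V` a `T`-module with an `𝒪`-basis of the form
`dia (g^e) b_i` (hypotheses `hX`, `hb` of `TW.AlgStatement`), `w ∈ T` of finite `p`-power order.
An **eigenvector** is a nonzero `y ∈ V` whose annihilator in `T` is a prime ideal.

* `twNil_of_pt` : if `w` fixes every eigenvector of a finite `T`-module `N`, then `(w - 1)^k N = 0`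
  for some `k` (minimal primes of the annihilator are associated primes).
* `twT_of_pt` : if `w` fixes every eigenvector fixed by `dia g_j`, then
  `(w - 1) V ⊆ (dia g_j - 1) V`  — hypothesis (T) of `twCmp_core`.
* `twR_of_ptCore` : if `w` fixes no eigenvector killed by `Φ`, then `w y = y`, `Φ y = 0` imply
  `y = 0`  — hypothesis (R) of `twCmp_core`.
* `twCmp_of_pt` : both together give the range equality `(w - 1) V = (dia g_j - 1) V`.
-/

set_option autoImplicit false

namespace Fermat.Agent.S59.H314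

open Polynomial Finset

section Nil

variable {T : Type*} [CommRing T] [IsNoetherianRing T] {N : Type*} [AddCommGroup N] [Module T N]

/-- If `x` kills every eigenvector of `N`, then some power of `x` kills `N`. -/
theorem twNil_of_pt [Module.Finite T N] (x : T)
    (hpt : ∀ y : N, y ≠ 0 → (∀ s t : T, (s * t) • y = 0 → s • y = 0 ∨ t • y = 0) → x • y = 0) :
    ∃ k : ℕ, ∀ y : N, x ^ k • y = 0 := by
  have hrad : x ∈ (Module.annihilator T N).radical := by
    rw [← Ideal.sInf_minimalPrimes, Ideal.mem_sInf]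
    intro 𝔮 h𝔮
    have hass := Module.associatedPrimes.minimalPrimes_annihilator_subset_associatedPrimes T N h𝔮
    have hass' : IsAssociatedPrime 𝔮 N := hass
    rw [isAssociatedPrime_iff] at hass'
    obtain ⟨hprime, v, hv⟩ := hass'
    have hmem : ∀ s : T, s ∈ 𝔮 ↔ s • v = 0 := by
      intro s
      rw [hv, Submodule.mem_colon_singleton, Submodule.mem_bot]
    have hv0 : v ≠ 0 := by
      intro h
      apply hprime.ne_top
      rw [Ideal.eq_top_iff_one, hmem, h, smul_zero]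
    rw [hmem]
    apply hpt v hv0
    intro s t hst
    rw [← hmem] at hst ⊢
    rw [← hmem]
    exact hprime.mem_or_mem hst
  obtain ⟨k, hk⟩ := hrad
  exact ⟨k, fun y => Module.mem_annihilator.mp hk y⟩

/-- If `w` fixes no eigenvector killed by `Φ`, then `w y = y` and `Φ y = 0` imply `y = 0`. -/
theorem twR_of_ptCore (Φ : Module.End T N) (w : T)
    (hpt : ∀ y : N, y ≠ 0 → (∀ s t : T, (s * t) • y = 0 → s • y = 0 ∨ t • y = 0) →
      Φ y = 0 → w • y ≠ y) :
    ∀ y : N, w • y = y → Φ y = 0 → y = 0 := by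
  classical
  intro y hwy hΦy
  by_contra hy0
  obtain ⟨K, hK⟩ : ∃ K : Submodule T N, ∀ z, z ∈ K ↔ w • z = z ∧ Φ z = 0 := by
    refine ⟨LinearMap.ker (LinearMap.lsmul T N (w - 1)) ⊓ LinearMap.ker Φ, fun z => ?_⟩
    rw [Submodule.mem_inf, LinearMap.mem_ker, LinearMap.mem_ker, LinearMap.lsmul_apply, sub_smul,
      one_smul, sub_eq_zero]
  have hyK : y ∈ K := (hK y).mpr ⟨hwy, hΦy⟩
  have hx : (⟨y, hyK⟩ : K) ≠ 0 := fun h => hy0 (congrArg Subtype.val h)
  obtain ⟨I, hI, -⟩ := exists_le_isAssociatedPrime_of_isNoetherianRing T (⟨y, hyK⟩ : K) hx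
  rw [isAssociatedPrime_iff] at hI
  obtain ⟨hprime, v, hv⟩ := hI
  have hmem : ∀ s : T, s ∈ I ↔ s • (v : N) = 0 := by
    intro s
    rw [hv, Submodule.mem_colon_singleton, Submodule.mem_bot]
    constructor
    · intro h
      have := congrArg Subtype.val h
      simpa using this
    · intro h
      apply Subtype.ext
      simpa using h
  have hv0 : (v : N) ≠ 0 := by
    intro h
    apply hprime.ne_top
    rw [Ideal.eq_top_iff_one, hmem, h, smul_zero]
  have hvK := (hK v).mp v.2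
  refine hpt (v : N) hv0 ?_ hvK.2 hvK.1
  intro s t hst
  rw [← hmem] at hst ⊢
  rw [← hmem]
  exact hprime.mem_or_mem hst

end Nil

section Pt

/-- **(T) from the pointwise statement** (Mathlib only; hypotheses `hX`, `hb` of
`TW.AlgStatement`). -/
theorem twT_of_pt (p : ℕ) (hp : p.Prime) (𝒪 : Type*) [CommRing 𝒪]
    (hpnzd : ∀ c : 𝒪, (p : 𝒪) * c = 0 → c = 0)
    (T : Type*) [CommRing T] [IsNoetherianRing T] [Algebra 𝒪 T]
    (V : Type*) [AddCommGroup V] [Module T V]
    (r : ℕ) (G : Fin r → Type*) [∀ j, CommGroup (G j)] (m : Fin r → ℕ)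
    (dia : (∀ j : Fin r, G j) →* Module.End T V) (g : ∀ j : Fin r, G j)
    (hX : ∀ j, dia (Pi.mulSingle j (g j)) ^ (p ^ m j) = 1)
    (d : ℕ) (b : Fin d → V)
    (hb : ∀ y : V, ∃! c : Fin d → (∀ j : Fin r, Fin (p ^ m j)) → 𝒪,
      y = ∑ i, ∑ e, algebraMap 𝒪 T (c i e) • dia (fun j => g j ^ (e j : ℕ)) (b i))
    (j : Fin r) (w : T) (a : ℕ) (hw : w ^ (p ^ a) = 1)
    (hpt : ∀ y : V, y ≠ 0 → (∀ s t : T, (s * t) • y = 0 → s • y = 0 ∨ t • y = 0) →
      dia (Pi.mulSingle j (g j)) y = y → w • y = y) :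
    ∀ y : V, ∃ y' : V, w • y - y = dia (Pi.mulSingle j (g j)) y' - y' := by
  classical
  let _inst : Module 𝒪 V := Module.compHom V (algebraMap 𝒪 T)
  have _tower : IsScalarTower 𝒪 T V := ⟨fun c t v => by
    show (c • t) • v = algebraMap 𝒪 T c • (t • v)
    rw [Algebra.smul_def, mul_smul]⟩
  rcases subsingleton_or_nontrivial 𝒪 with h𝒪 | h𝒪
  · intro y
    have : Subsingleton V := Module.subsingleton 𝒪 V
    exact ⟨0, Subsingleton.elim _ _⟩
  obtain ⟨e, B, hB⟩ := twCmp_basis (𝒪 := 𝒪) p r G m dia g d b hb j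
  have hfin𝒪 : Module.Finite 𝒪 V := Module.Finite.of_basis B
  have hfinT : Module.Finite T V := Module.Finite.of_restrictScalars_finite 𝒪 T V
  have hnoeth : IsNoetherian T V := isNoetherian_of_isNoetherianRing_of_finite T V
  obtain ⟨δT, hδT⟩ : ∃ δT : Module.End T V, δT = dia (Pi.mulSingle j (g j)) := ⟨_, rfl⟩
  rw [← hδT] at hpt hB ⊢
  have hXj : δT ^ (p ^ m j) = 1 := by rw [hδT]; exact hX j
  obtain ⟨δ, hδ⟩ : ∃ δ : Module.End 𝒪 V, ∀ y, δ y = δT y := ⟨δT.restrictScalars 𝒪, fun _ => rfl⟩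
  have hδpow : ∀ (k : ℕ) (y : V), (δ ^ k) y = (δT ^ k) y := by
    intro k
    induction k with
    | zero => intro y; simp
    | succ k ih =>
      intro y
      rw [pow_succ, pow_succ, Module.End.mul_apply, Module.End.mul_apply, hδ, ih]
  have hδ1 : δ ^ (p ^ m j) = 1 := by
    ext y
    rw [hδpow, hXj]
    rfl
  have hB' : ∀ z, B z = (δ ^ (z.1 : ℕ)) (e z.2) := by
    intro z
    rw [hB, hδpow]
  have hq : 0 < p ^ m j := pow_pos hp.pos _
  have hF : (∑ i ∈ range (p ^ m j), (X : 𝒪[X]) ^ i).Monic := monic_geom_sum_X hq.ne'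
  have hFG : (∑ i ∈ range (p ^ m j), (X : 𝒪[X]) ^ i) * (X - 1) = X ^ (p ^ m j) - 1 :=
    geom_sum_mul X _
  -- the fixed submodule
  obtain ⟨K, hK⟩ : ∃ K : Submodule T V, ∀ z, z ∈ K ↔ δT z = z := by
    refine ⟨LinearMap.ker (δT - 1), fun z => ?_⟩
    rw [LinearMap.mem_ker, LinearMap.sub_apply, Module.End.one_apply, sub_eq_zero]
  have hKfin : Module.Finite T K := Module.IsNoetherian.finite T K
  obtain ⟨k, hk⟩ := twNil_of_pt (T := T) (N := K) (w - 1) (by
    intro y hy hprime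
    have hy' : (y : V) ≠ 0 := fun h => hy (Subtype.ext h)
    have h1 := hpt (y : V) hy' (by
      intro s t hst
      have h2 : (s * t) • y = 0 := Subtype.ext (by simpa using hst)
      rcases hprime s t h2 with h3 | h3
      · left
        have := congrArg Subtype.val h3
        simpa using this
      · right
        have := congrArg Subtype.val h3
        simpa using this) ((hK y).mp y.2)
    apply Subtype.ext
    rw [Submodule.coe_smul, sub_smul, one_smul, h1, sub_self]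
    rfl)
  -- the norm
  obtain ⟨ν, hν⟩ : ∃ ν : Module.End T V, ν = ∑ i ∈ range (p ^ m j), δT ^ i := ⟨_, rfl⟩
  have hνK : ∀ y : V, ν y ∈ K := by
    intro y
    rw [hK]
    have h1 : δT * ν = ν + (δT ^ (p ^ m j) - 1) := by
      rw [hν]
      have h2 := mul_geom_sum δT (p ^ m j)
      have h3 : (δT - 1) * ∑ i ∈ range (p ^ m j), δT ^ i = δT ^ (p ^ m j) - 1 := h2
      rw [sub_mul, one_mul] at h3
      rw [← h3]
      abel
    have h4 := congrArg (fun f : Module.End T V => f y) h1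
    simp only [Module.End.mul_apply, hXj, sub_self, add_zero] at h4
    exact h4
  have hνδ : ∀ y : V, ν y = aeval δ (∑ i ∈ range (p ^ m j), (X : 𝒪[X]) ^ i) y := by
    intro y
    rw [hν, map_sum, LinearMap.sum_apply, LinearMap.sum_apply]
    apply Finset.sum_congr rfl
    intro i _
    rw [map_pow, aeval_X, hδpow]
  have hkey : ∀ y : V, ∃ y' : V, (w - 1) ^ k • y = δT y' - y' := by
    intro y
    have h1 : ν ((w - 1) ^ k • y) = 0 := by
      rw [map_smul]
      have := hk ⟨ν y, hνK y⟩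
      have h2 := congrArg Subtype.val this
      simpa using h2
    rw [hνδ] at h1
    obtain ⟨y', hy'⟩ := twBasis_ker_range (p ^ m j) hq δ e B hB' hδ1 _ _ hF hFG _ h1
    refine ⟨y', ?_⟩
    rw [hy']
    simp [hδ]
  rw [hδT] at hkey ⊢
  exact twT_core p hp 𝒪 hpnzd T V r G m dia g hX d b hb j w a hw k hkey

/-- **TW-ALG from the pointwise statements** (Mathlib only): (T) and (R) on eigenvectors give the
range equality `(w - 1) V = (dia g_j - 1) V`. -/
theorem twCmp_of_pt (p : ℕ) (hp : p.Prime) (hp2 : p ≠ 2) (𝒪 : Type*) [CommRing 𝒪]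
    (hpJ : (p : 𝒪) ∈ Ideal.jacobson (⊥ : Ideal 𝒪)) (hpnzd : ∀ c : 𝒪, (p : 𝒪) * c = 0 → c = 0)
    (T : Type*) [CommRing T] [IsNoetherianRing T] [Algebra 𝒪 T]
    (V : Type*) [AddCommGroup V] [Module T V]
    (r : ℕ) (G : Fin r → Type*) [∀ j, CommGroup (G j)] (m : Fin r → ℕ)
    (dia : (∀ j : Fin r, G j) →* Module.End T V) (g : ∀ j : Fin r, G j)
    (hX : ∀ j, dia (Pi.mulSingle j (g j)) ^ (p ^ m j) = 1)
    (d : ℕ) (b : Fin d → V)
    (hb : ∀ y : V, ∃! c : Fin d → (∀ j : Fin r, Fin (p ^ m j)) → 𝒪,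
      y = ∑ i, ∑ e, algebraMap 𝒪 T (c i e) • dia (fun j => g j ^ (e j : ℕ)) (b i))
    (j : Fin r) (w : T) (a : ℕ) (hw : w ^ (p ^ a) = 1)
    (hTpt : ∀ y : V, y ≠ 0 → (∀ s t : T, (s * t) • y = 0 → s • y = 0 ∨ t • y = 0) →
      dia (Pi.mulSingle j (g j)) y = y → w • y = y)
    (hRpt : ∀ y : V, y ≠ 0 → (∀ s t : T, (s * t) • y = 0 → s • y = 0 ∨ t • y = 0) →
      (∑ k ∈ Finset.range p, dia (Pi.mulSingle j (g j)) ^ k) y = 0 → w • y ≠ y) :
    ∀ y : V, (∃ y' : V, y = w • y' - y') ↔ ∃ y' : V, y = dia (Pi.mulSingle j (g j)) y' - y' := by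
  classical
  let _inst : Module 𝒪 V := Module.compHom V (algebraMap 𝒪 T)
  have _tower : IsScalarTower 𝒪 T V := ⟨fun c t v => by
    show (c • t) • v = algebraMap 𝒪 T c • (t • v)
    rw [Algebra.smul_def, mul_smul]⟩
  have hT := twT_of_pt p hp 𝒪 hpnzd T V r G m dia g hX d b hb j w a hw hTpt
  rcases subsingleton_or_nontrivial 𝒪 with h𝒪 | h𝒪
  · intro y
    have : Subsingleton V := Module.subsingleton 𝒪 V
    exact ⟨fun _ => ⟨0, Subsingleton.elim _ _⟩, fun _ => ⟨0, Subsingleton.elim _ _⟩⟩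
  have hR := twR_of_ptCore (T := T) (N := V)
    (∑ k ∈ Finset.range p, dia (Pi.mulSingle j (g j)) ^ k) w hRpt
  exact twCmp_core p hp hp2 𝒪 hpJ hpnzd T V r G m dia g hX d b hb j w a hw hT hR

end Pt

end Fermat.Agent.S59.H314
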