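import Mathlib

/-!
# S59, cell TW: the elementary lemma TW-ALG (helper314)

`coord/S59-TWALG-helper314.md`.  Mathlib only.

`N` a finite `O`-module without `p`-torsion (`p` odd, `p ∈ Jac O`), `δ, V` commuting endomorphisms,
`δ ^ (p ^ (n+1)) = 1`, `U := 1 + (δ - 1) V` of finite `p`-power order,
* (H1) `ker ((δ - 1) ∑_{j < p^n} δ^{p j}) ⊆ range (∑_{k < p} δ^k)`   (true if `N` is free over `O[⟨δ⟩]`),
* (R)  `U x = x`, `(∑_{k < p} δ^k) x = 0` imply `x = 0`.
Then `V` is onto (`twAlg_op`), hence `(U - 1) N = (δ - 1) N`.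
-/

set_option autoImplicit false

namespace Fermat.Agent.S59.H314

open Polynomial Finset

/-- Step 0 in `ℤ[X]`. -/
theorem twPoly_exists (p : ℕ) (hp : p.Prime) :
    ∃ r : ℤ[X], (X + 1) ^ p = X ^ p + 1 + (p : ℤ[X]) * X * (1 + X * r) ∧
      ∑ k ∈ range p, (X + 1 : ℤ[X]) ^ k = X ^ (p - 1) + (p : ℤ[X]) * (1 + X * r) := by
  obtain ⟨r, hr⟩ := exists_add_pow_prime_eq hp (X : ℤ[X]) 1
  have h0 : r.coeff 0 = 1 := by
    have h1 := congrArg (fun f : ℤ[X] => f.coeff 1) hr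
    simp only [coeff_X_add_one_pow, Nat.choose_one_right, one_pow, mul_one, coeff_add] at h1
    have h2 : ((X : ℤ[X]) ^ p).coeff 1 = 0 := by
      have := hp.two_le
      rw [coeff_X_pow, if_neg (by omega)]
    have h3 : ((1 : ℤ[X])).coeff 1 = 0 := by
      rw [coeff_one]; simp
    have h4 : ((p : ℤ[X]) * X * r).coeff 1 = (p : ℤ) * r.coeff 0 := by
      rw [mul_assoc, ← C_eq_natCast, coeff_C_mul, coeff_X_mul]
    rw [h2, h3, h4] at h1
    have hp0 : (p : ℤ) ≠ 0 := by exact_mod_cast hp.ne_zero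
    have : (p : ℤ) * (r.coeff 0 - 1) = 0 := by push_cast at h1; linear_combination -h1
    rcases mul_eq_zero.mp this with h | h
    · exact absurd h hp0
    · linarith
  obtain ⟨r1, hr1⟩ : X ∣ r - 1 := by
    rw [X_dvd_iff]; simp [h0]
  have hr' : r = 1 + X * r1 := by linear_combination hr1
  refine ⟨r1, ?_, ?_⟩
  · rw [hr, hr']; ring
  · have hX : (X : ℤ[X]) ≠ 0 := X_ne_zero
    apply mul_left_cancel₀ hX
    have hgeom : (X : ℤ[X]) * ∑ k ∈ range p, (X + 1 : ℤ[X]) ^ k = (X + 1) ^ p - 1 := by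
      have := mul_geom_sum (X + 1 : ℤ[X]) p
      rw [← this]; ring
    rw [hgeom, hr, hr']
    obtain ⟨m, rfl⟩ : ∃ m, p = m + 1 := ⟨p - 1, by have := hp.one_lt; omega⟩
    simp only [Nat.add_sub_cancel]
    ring

/-- Step 0 in any commutative ring. -/
theorem twPoly_eval {S : Type*} [CommRing S] (p : ℕ) (hp : p.Prime) (y : S) :
    ∃ t : S, (y + 1) ^ p = y ^ p + 1 + (p : S) * y * (1 + y * t) ∧
      ∑ k ∈ range p, (y + 1) ^ k = y ^ (p - 1) + (p : S) * (1 + y * t) := by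
  obtain ⟨r, h1, h2⟩ := twPoly_exists p hp
  refine ⟨aeval y r, ?_, ?_⟩
  · have := congrArg (aeval y) h1
    simpa using this
  · have := congrArg (aeval y) h2
    simpa using this

section CoreRing

variable {S : Type*} [CommRing S]

/-- Lemma L: a finite-order element `≡ 1 mod pπ` is `1`. -/
theorem twCore_lemmaL (p : ℕ) (hp : p.Prime) (π : S)
    (N1 : ∀ s : S, (p : S) * s = 0 → s = 0)
    (hπ : ∀ s : S, π * s = 0 → s = 0)
    (N2 : ∀ x s : S, s * (1 + π * x) = 0 → s = 0) :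
    ∀ (a : ℕ) (E : S), (1 + (p : S) * π * E) ^ (p ^ a) = 1 → E = 0 := by
  intro a
  induction a with
  | zero =>
    intro E h
    rw [pow_zero, pow_one] at h
    have h1 : (p : S) * (π * E) = 0 := by linear_combination h
    exact hπ _ (N1 _ h1)
  | succ a ih =>
    intro E h
    obtain ⟨t, ht, -⟩ := twPoly_eval p hp ((p : S) * π * E)
    obtain ⟨m, hm⟩ : ∃ m, p = m + 2 := ⟨p - 2, by have := hp.two_le; omega⟩
    obtain ⟨P, hP⟩ : ∃ P : S, P = (p : S) := ⟨_, rfl⟩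
    rw [← hP] at ht N1 h ih
    have key : (1 + P * π * E) ^ p =
        1 + P * π * (P * E * (1 + π * (P * E * t + P ^ m * π ^ m * E ^ (m + 1)))) := by
      have : (1 + P * π * E) = (P * π * E + 1) := by ring1
      rw [this, ht, hm]
      ring1
    rw [pow_succ, pow_mul', key] at h
    have h2 := ih _ h
    have h3 : P * E = 0 := N2 _ _ h2
    exact N1 _ h3

/-- CORE-RING (in terms of `π = z - 1`). -/
theorem twCore_ring (p : ℕ) (hp : p.Prime) (π v : S)
    (hz : ∑ k ∈ range p, (π + 1) ^ k = 0)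
    (a : ℕ) (hu : (1 + π * v) ^ (p ^ a) = 1)
    (N1 : ∀ s : S, (p : S) * s = 0 → s = 0)
    (N2 : ∀ x s : S, s * (1 + π * x) = 0 → s = 0) :
    ∃ g : S, v * (1 + v * g) = 0 := by
  obtain ⟨t, -, ht2⟩ := twPoly_eval p hp π
  rw [hz] at ht2
  obtain ⟨t', ht', -⟩ := twPoly_eval p hp (π * v)
  obtain ⟨m, hm⟩ : ∃ m, p = m + 2 := ⟨p - 2, by have := hp.two_le; omega⟩
  obtain ⟨P, hP⟩ : ∃ P : S, P = (p : S) := ⟨_, rfl⟩
  have hm1 : p - 1 = m + 1 := by omega
  rw [hm1, ← hP] at ht2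
  rw [← hP] at ht'
  -- π ^ (m+1) = - P * (1 + π t)
  have hπpow : π ^ (m + 1) = - (P * (1 + π * t)) := by linear_combination -ht2
  have hπ : ∀ s : S, π * s = 0 → s = 0 := by
    intro s hs
    have h1 : π ^ (m + 1) * s = 0 := by
      rw [pow_succ, mul_assoc, hs, mul_zero]
    rw [hπpow] at h1
    have h2 : P * (s * (1 + π * t)) = 0 := by linear_combination -h1
    rw [hP] at h2
    exact N2 _ _ (N1 _ h2)
  refine ⟨π * t' - (1 + π * t) * v ^ m, ?_⟩
  apply twCore_lemmaL p hp π N1 hπ N2 a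
  have key : (1 + π * v) ^ p =
      1 + P * π * (v * (1 + v * (π * t' - (1 + π * t) * v ^ m))) := by
    have : (1 + π * v) = (π * v + 1) := by ring1
    rw [this, ht']
    have e : (π * v) ^ p = π * π ^ (m + 1) * v ^ (m + 2) := by rw [hm]; ring1
    rw [e, hπpow]
    ring1
  rw [← hP, ← key, ← pow_mul, ← pow_succ', pow_succ, pow_mul, hu, one_pow]

end CoreRing

section CoreMod

variable {O : Type*} [CommRing O] {M : Type*} [AddCommGroup M] [Module O M]

/-- Nakayama, elementwise form. -/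
theorem tw_surj_of_nak [Module.Finite O M] (c : O) (hc : c ∈ Ideal.jacobson (⊥ : Ideal O))
    (f : M →ₗ[O] M) (h : ∀ m : M, ∃ y w, m = f y + c • w) : Function.Surjective f := by
  rw [← LinearMap.range_eq_top]
  apply top_le_iff.mp
  apply Submodule.le_of_le_smul_of_le_jacobson_bot (I := Ideal.span {c}) Module.Finite.fg_top
  · rw [Ideal.span_le]
    intro x hx
    rw [Set.mem_singleton_iff] at hx
    rw [hx]; exact hc
  · intro m _
    obtain ⟨y, w, hyw⟩ := h m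
    rw [hyw]
    exact Submodule.add_mem_sup ⟨y, rfl⟩
      (Submodule.smul_mem_smul (Ideal.mem_span_singleton_self c) Submodule.mem_top)

/-- `1 + T` is surjective if `T ^ (n+1)` is divisible by `c ∈ Jac`. -/
theorem tw_surj_one_add [Module.Finite O M] (c : O) (hc : c ∈ Ideal.jacobson (⊥ : Ideal O))
    (T h : Module.End O M) (n : ℕ) (hT : T ^ n = c • h) : Function.Surjective ((1 + T : Module.End O M)) := by
  apply tw_surj_of_nak c hc
  intro m
  have hgeom : (1 + T) * (∑ i ∈ range n, (-T) ^ i) = 1 - (-T) ^ n := by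
    have := mul_neg_geom_sum (-T) n
    rw [← this]
    congr 1
    noncomm_ring
  have hneg : (-T) ^ n = c • ((-1) ^ n * h) := by
    rw [neg_pow, hT, mul_smul_comm]
  refine ⟨(∑ i ∈ range n, (-T) ^ i) m, ((-1) ^ n * h) m, ?_⟩
  have e1 : (1 + T) ((∑ i ∈ range n, (-T) ^ i) m) = ((1 + T) * (∑ i ∈ range n, (-T) ^ i)) m := rfl
  rw [e1, hgeom, hneg]
  simp

open scoped IsMulCommutative in
/-- CORE-MOD. -/
theorem twCore_mod [Module.Finite O M] (p : ℕ) (hp : p.Prime)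
    (hpO : (p : O) ∈ Ideal.jacobson (⊥ : Ideal O))
    (htf : ∀ m : M, (p : O) • m = 0 → m = 0)
    (π v : Module.End O M) (hπv : Commute π v)
    (hz : ∑ k ∈ range p, (π + 1) ^ k = 0)
    (a : ℕ) (hu : (1 + π * v) ^ (p ^ a) = 1)
    (hinj : Function.Injective v) : Function.Surjective v := by
  have hcomm : ∀ x ∈ ({π, v} : Set (Module.End O M)), ∀ y ∈ ({π, v} : Set (Module.End O M)),
      x * y = y * x := by
    rintro x (rfl | rfl) y (rfl | rfl)
    · rfl
    · exact hπv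
    · exact hπv.symm
    · rfl
  have hmc := Algebra.isMulCommutative_adjoin O hcomm
  obtain ⟨S, hS⟩ : ∃ S : Subalgebra O (Module.End O M), S = Algebra.adjoin O ({π, v} : Set (Module.End O M)) :=
    ⟨_, rfl⟩
  have : IsMulCommutative S := by rw [hS]; exact hmc
  have hπS : π ∈ S := by rw [hS]; exact Algebra.subset_adjoin (by simp)
  have hvS : v ∈ S := by rw [hS]; exact Algebra.subset_adjoin (by simp)
  -- the elements
  obtain ⟨π', hπ'⟩ : ∃ π' : S, (π' : Module.End O M) = π := ⟨⟨π, hπS⟩, rfl⟩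
  obtain ⟨v', hv'⟩ : ∃ v' : S, (v' : Module.End O M) = v := ⟨⟨v, hvS⟩, rfl⟩
  have hz' : ∑ k ∈ range p, (π' + 1) ^ k = 0 := by
    apply Subtype.ext
    rw [← hπ'] at hz
    simpa using hz
  have hu' : (1 + π' * v') ^ (p ^ a) = 1 := by
    apply Subtype.ext
    rw [← hπ', ← hv'] at hu
    simpa using hu
  have N1 : ∀ s : S, (p : S) * s = 0 → s = 0 := by
    intro s hs
    apply Subtype.ext
    have h1 : ((p : S) * s : S).1 = 0 := by rw [hs]; rfl
    apply LinearMap.ext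
    intro m
    apply htf
    have h2 := LinearMap.congr_fun h1 m
    simpa [Nat.cast_smul_eq_nsmul] using h2
  -- π ^ (p-1) = p * c
  obtain ⟨t, -, ht2⟩ := twPoly_eval p hp π'
  rw [hz'] at ht2
  have N2 : ∀ x s : S, s * (1 + π' * x) = 0 → s = 0 := by
    intro x s hs
    have hT : (π' * x) ^ (p - 1) = (p : S) * (- (1 + π' * t) * x ^ (p - 1)) := by
      rw [mul_pow]
      linear_combination (-(x ^ (p - 1))) * ht2
    have hsurj : Function.Surjective ((1 : Module.End O M) + ((π' * x : S) : Module.End O M)) := by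
      apply tw_surj_one_add (p : O) hpO _ ((- (1 + π' * t) * x ^ (p - 1) : S) : Module.End O M) (p - 1)
      rw [← Subalgebra.coe_pow, hT, Subalgebra.coe_mul, SubringClass.coe_natCast,
        Nat.cast_smul_eq_nsmul, nsmul_eq_mul]
    apply Subtype.ext
    apply LinearMap.ext
    intro m
    obtain ⟨m', rfl⟩ := hsurj m
    have h1 := congrArg (fun s : S => (s : Module.End O M)) hs
    have h2 := LinearMap.congr_fun h1 m'
    simpa using h2
  obtain ⟨g, hg⟩ := twCore_ring p hp π' v' hz' a hu' N1 N2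
  have h1 := congrArg (fun s : S => (s : Module.End O M)) hg
  simp only [Subalgebra.coe_mul, Subalgebra.coe_add, Subalgebra.coe_one, hv', Subalgebra.coe_zero] at h1
  intro m
  refine ⟨(-(g : Module.End O M)) m, ?_⟩
  have h2 := LinearMap.congr_fun h1 m
  have h3 : v (m + v ((g : Module.End O M) m)) = 0 := by simpa using h2
  have h4 := hinj (h3.trans (map_zero v).symm)
  simp only [LinearMap.neg_apply, map_neg]
  rw [eq_comm, ← add_eq_zero_iff_eq_neg]
  exact h4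

end CoreMod

section Smul

variable {O S : Type*} [CommRing O] [CommRing S] [Algebra O S]

/-- CORE-MOD, scalar form. -/
theorem twCore_smul {M : Type*} [AddCommGroup M] [Module O M] [Module S M] [IsScalarTower O S M]
    [Module.Finite O M] (p : ℕ) (hp : p.Prime) (hpO : (p : O) ∈ Ideal.jacobson (⊥ : Ideal O))
    (htf : ∀ m : M, (p : O) • m = 0 → m = 0)
    (π v : S) (hz : ∀ m : M, (∑ k ∈ range p, (π + 1) ^ k) • m = 0)
    (a : ℕ) (hu : ∀ m : M, ((1 + π * v) ^ (p ^ a)) • m = m)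
    (hinj : ∀ m : M, v • m = 0 → m = 0) (m : M) : ∃ m', v • m' = m := by
  obtain ⟨L, hL⟩ : ∃ L : S →ₐ[O] Module.End O M, ∀ (s : S) (m : M), L s m = s • m :=
    ⟨Algebra.lsmul O O M, fun _ _ => rfl⟩
  have hsurj := twCore_mod p hp hpO htf (L π) (L v)
    (by rw [Commute, SemiconjBy, ← map_mul, ← map_mul, mul_comm]) ?_ a ?_ ?_
  · obtain ⟨m', hm'⟩ := hsurj m
    exact ⟨m', by rw [← hL, hm']⟩
  · apply LinearMap.ext
    intro m
    have : (∑ k ∈ range p, (L π + 1) ^ k) = L (∑ k ∈ range p, (π + 1) ^ k) := by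
      simp [map_sum]
    rw [this, hL, hz]; rfl
  · apply LinearMap.ext
    intro m
    have : (1 + L π * L v) ^ (p ^ a) = L ((1 + π * v) ^ (p ^ a)) := by simp
    rw [this, hL, hu]; rfl
  · intro x y hxy
    rw [hL, hL] at hxy
    have : v • (x - y) = 0 := by rw [smul_sub, hxy, sub_self]
    exact sub_eq_zero.mp (hinj _ this)

/-- TW-ALG, scalar form: `V` is onto. -/
theorem twAlg_smul {N : Type*} [AddCommGroup N] [Module O N] [Module S N] [IsScalarTower O S N]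
    [Module.Finite O N] (p : ℕ) (hp : p.Prime) (hp2 : p ≠ 2)
    (hpO : (p : O) ∈ Ideal.jacobson (⊥ : Ideal O))
    (htf : ∀ x : N, (p : O) • x = 0 → x = 0)
    (δ V : S) (n a : ℕ)
    (hδ : ∀ x : N, (δ ^ (p ^ (n + 1))) • x = x)
    (hU : ∀ x : N, ((1 + (δ - 1) * V) ^ (p ^ a)) • x = x)
    (H1 : ∀ x : N, ((δ - 1) * ∑ j ∈ range (p ^ n), δ ^ (p * j)) • x = 0 →
      ∃ y : N, x = (∑ k ∈ range p, δ ^ k) • y)
    (R : ∀ x : N, ((δ - 1) * V) • x = 0 → (∑ k ∈ range p, δ ^ k) • x = 0 → x = 0)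
    (x : N) : ∃ y : N, V • y = x := by
  obtain ⟨Φ, hΦ⟩ : ∃ Φ : S, Φ = ∑ k ∈ range p, δ ^ k := ⟨_, rfl⟩
  obtain ⟨Ψ, hΨ⟩ : ∃ Ψ : S, Ψ = (δ - 1) * ∑ j ∈ range (p ^ n), δ ^ (p * j) := ⟨_, rfl⟩
  rw [← hΦ] at H1 R
  rw [← hΨ] at H1
  have hΨΦ : Ψ * Φ = δ ^ (p ^ (n + 1)) - 1 := by
    have h1 : Φ * (δ - 1) = δ ^ p - 1 := by rw [hΦ]; exact geom_sum_mul δ p
    have h2 : (∑ j ∈ range (p ^ n), δ ^ (p * j)) * (δ ^ p - 1) = δ ^ (p ^ (n + 1)) - 1 := by
      have := geom_sum_mul (δ ^ p) (p ^ n)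
      rw [← pow_mul, ← pow_succ'] at this
      rw [← this]
      congr 1
      apply Finset.sum_congr rfl
      intro j _
      rw [pow_mul]
    rw [hΨ, ← h2, ← h1]; ring
  have hΨΦ0 : ∀ y : N, (Ψ * Φ) • y = 0 := by
    intro y
    rw [hΨΦ, sub_smul, hδ, one_smul, sub_self]
  have hpS : ∀ y : N, (p : S) • y = (p : O) • y := by
    intro y
    rw [Nat.cast_smul_eq_nsmul, Nat.cast_smul_eq_nsmul]
  -- the quotient
  obtain ⟨K, hK⟩ : ∃ K : Submodule S N, ∀ y, y ∈ K ↔ ∃ w, y = Φ • w :=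
    ⟨LinearMap.range (LinearMap.lsmul S N Φ), fun y => by
      rw [LinearMap.mem_range]
      constructor
      · rintro ⟨w, hw⟩; exact ⟨w, hw.symm⟩
      · rintro ⟨w, hw⟩; exact ⟨w, hw.symm⟩⟩
  have hmk0 : ∀ y : N, K.mkQ y = 0 ↔ ∃ w, y = Φ • w := by
    intro y
    rw [Submodule.mkQ_apply, Submodule.Quotient.mk_eq_zero, hK]
  have hstep : ∀ x : N, ∃ y w : N, x = V • y + Φ • w := by
    intro x
    have := twCore_smul (O := O) (S := S) (M := N ⧸ K) p hp hpO ?_ (δ - 1) V ?_ a ?_ ?_ (K.mkQ x)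
    · obtain ⟨m', hm'⟩ := this
      obtain ⟨y, rfl⟩ := K.mkQ_surjective m'
      rw [← map_smul, ← sub_eq_zero, ← map_sub, hmk0] at hm'
      obtain ⟨w, hw⟩ := hm'
      refine ⟨y, -w, ?_⟩
      rw [smul_neg, ← hw]; abel
    · intro m hm
      obtain ⟨y, rfl⟩ := K.mkQ_surjective m
      rw [Nat.cast_smul_eq_nsmul O, ← Nat.cast_smul_eq_nsmul S, ← map_smul, hmk0] at hm
      obtain ⟨w, hw⟩ := hm
      rw [hmk0]
      apply H1
      apply htf
      rw [← hpS, smul_comm, hw, ← mul_smul, hΨΦ0]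
    · intro m
      obtain ⟨y, rfl⟩ := K.mkQ_surjective m
      rw [← map_smul, hmk0]
      exact ⟨y, by rw [hΦ]; simp⟩
    · intro m
      obtain ⟨y, rfl⟩ := K.mkQ_surjective m
      rw [← map_smul, hU]
    · intro m hm
      obtain ⟨y, rfl⟩ := K.mkQ_surjective m
      rw [← map_smul, hmk0] at hm
      obtain ⟨w, hw⟩ := hm
      rw [hmk0]
      apply H1
      apply R
      · rw [← mul_smul]
        have : (δ - 1) * V * Ψ = (δ - 1) * Ψ * V := by ring
        rw [this, mul_smul, hw, ← mul_smul, mul_assoc, mul_smul, hΨΦ0, smul_zero]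
      · rw [← mul_smul, mul_comm, hΨΦ0]
  -- iteration
  obtain ⟨Y, hY⟩ : ∃ Y : S, Y = δ - 1 := ⟨_, rfl⟩
  obtain ⟨m, hm⟩ : ∃ m, p = m + 2 := ⟨p - 2, by have := hp.two_le; omega⟩
  obtain ⟨c, hc⟩ : ∃ c : S, Φ = Y * Y ^ m + (p : S) * c := by
    obtain ⟨t, -, ht⟩ := twPoly_eval p hp Y
    refine ⟨1 + Y * t, ?_⟩
    have e : Y + 1 = δ := by rw [hY]; ring
    rw [e, ← hΦ] at ht
    have hm1 : p - 1 = m + 1 := by omega
    rw [ht, hm1, pow_succ']
  obtain ⟨s₁, hs₁⟩ : ∃ s₁ : S, Y ^ (p ^ (n + 1)) = δ ^ (p ^ (n + 1)) - 1 + (p : S) * s₁ := by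
    obtain ⟨r, hr⟩ := exists_add_pow_prime_pow_eq hp δ (-1) (n + 1)
    have hodd : Odd (p ^ (n + 1)) := (hp.odd_of_ne_two hp2).pow
    rw [hodd.neg_one_pow] at hr
    refine ⟨- δ * r, ?_⟩
    rw [hY, sub_eq_add_neg, hr]; ring
  have hiter : ∀ (k : ℕ) (x : N), ∃ y w w' : N, x = V • y + Y ^ k • w + (p : S) • w' := by
    intro k
    induction k with
    | zero => intro x; exact ⟨0, x, 0, by simp⟩
    | succ k ih =>
      intro x
      obtain ⟨y, w, w', hx⟩ := ih x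
      obtain ⟨y₁, w₁, hw⟩ := hstep w
      refine ⟨y + Y ^ k • y₁, Y ^ m • w₁, w' + (Y ^ k * c) • w₁, ?_⟩
      rw [hx, hw, hc]
      module
  have hfin : ∀ x : N, ∃ y w : N, x = V • y + (p : O) • w := by
    intro x
    obtain ⟨y, w, w', hx⟩ := hiter (p ^ (n + 1)) x
    refine ⟨y, s₁ • w + w', ?_⟩
    rw [← hpS, hx, hs₁, add_smul, sub_smul, hδ, one_smul, sub_self, zero_add]
    module
  obtain ⟨L, hL⟩ : ∃ L : S →ₐ[O] Module.End O N, ∀ (s : S) (m : N), L s m = s • m :=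
    ⟨Algebra.lsmul O O N, fun _ _ => rfl⟩
  have hsurj := tw_surj_of_nak (p : O) hpO (L V) (by
    intro x
    obtain ⟨y, w, h⟩ := hfin x
    exact ⟨y, w, by rw [hL]; exact h⟩)
  obtain ⟨y, hy⟩ := hsurj x
  exact ⟨y, by rw [← hL, hy]⟩

end Smul

section Op

variable {O N : Type*} [CommRing O] [AddCommGroup N] [Module O N]

open scoped IsMulCommutative in
/-- TW-ALG, operator form: `V` is onto. -/
theorem twAlg_op [Module.Finite O N] (p : ℕ) (hp : p.Prime) (hp2 : p ≠ 2)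
    (hpO : (p : O) ∈ Ideal.jacobson (⊥ : Ideal O))
    (htf : ∀ x : N, (p : O) • x = 0 → x = 0)
    (δ V : Module.End O N) (hδV : Commute δ V) (n a : ℕ)
    (hδ : δ ^ (p ^ (n + 1)) = 1)
    (hU : (1 + (δ - 1) * V) ^ (p ^ a) = 1)
    (H1 : ∀ x : N, ((δ - 1) * ∑ j ∈ range (p ^ n), δ ^ (p * j)) x = 0 →
      ∃ y : N, x = (∑ k ∈ range p, δ ^ k) y)
    (R : ∀ x : N, ((δ - 1) * V) x = 0 → (∑ k ∈ range p, δ ^ k) x = 0 → x = 0) :
    Function.Surjective V := by
  have hcomm : ∀ x ∈ ({δ, V} : Set (Module.End O N)), ∀ y ∈ ({δ, V} : Set (Module.End O N)),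
      x * y = y * x := by
    rintro x (rfl | rfl) y (rfl | rfl)
    · rfl
    · exact hδV
    · exact hδV.symm
    · rfl
  have hmc := Algebra.isMulCommutative_adjoin O hcomm
  obtain ⟨S, hS⟩ : ∃ S : Subalgebra O (Module.End O N),
      S = Algebra.adjoin O ({δ, V} : Set (Module.End O N)) := ⟨_, rfl⟩
  have : IsMulCommutative S := by rw [hS]; exact hmc
  have hδS : δ ∈ S := by rw [hS]; exact Algebra.subset_adjoin (by simp)
  have hVS : V ∈ S := by rw [hS]; exact Algebra.subset_adjoin (by simp)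
  obtain ⟨δ', hδ'⟩ : ∃ δ' : S, S.val δ' = δ := ⟨⟨δ, hδS⟩, rfl⟩
  obtain ⟨V', hV'⟩ : ∃ V' : S, S.val V' = V := ⟨⟨V, hVS⟩, rfl⟩
  have key : ∀ (s : S) (x : N), s • x = S.val s x := fun _ _ => rfl
  intro x
  have hmain := twAlg_smul (O := O) (S := S) (N := N) p hp hp2 hpO htf δ' V' n a ?_ ?_ ?_ ?_ x
  · obtain ⟨y, hy⟩ := hmain
    exact ⟨y, by rw [← hV', ← key, hy]⟩
  · intro x
    rw [key, map_pow, hδ', hδ, Module.End.one_apply]
  · intro x
    rw [key]
    simp only [map_pow, map_add, map_mul, map_sub, map_one, hδ', hV']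
    rw [hU, Module.End.one_apply]
  · intro x hx
    rw [key] at hx
    simp only [map_pow, map_sum, map_mul, map_sub, map_one, hδ'] at hx
    obtain ⟨y, hy⟩ := H1 x hx
    refine ⟨y, ?_⟩
    rw [key]
    simp only [map_pow, map_sum, hδ']
    exact hy
  · intro x hx1 hx2
    rw [key] at hx1 hx2
    simp only [map_pow, map_sum, map_mul, map_sub, map_one, hδ', hV'] at hx1 hx2
    exact R x hx1 hx2

end Op

section Basis

variable {O N ι : Type*} [CommRing O] [AddCommGroup N] [Module O N] [Fintype ι]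

/-- expansion of `x` in a basis of the form `δ ^ k (e i)`. -/
theorem twBasis_expand (q : ℕ) (δ : Module.End O N) (e : ι → N)
    (B : Module.Basis (Fin q × ι) O N) (hB : ∀ z, B z = (δ ^ (z.1 : ℕ)) (e z.2)) (x : N) :
    ∃ f : ι → O[X], x = ∑ i, (aeval δ (f i)) (e i) := by
  refine ⟨fun i => ∑ k : Fin q, C (B.repr x (k, i)) * X ^ (k : ℕ), ?_⟩
  conv_lhs => rw [← B.sum_repr x]
  rw [Fintype.sum_prod_type_right]
  apply Finset.sum_congr rfl
  intro i _
  rw [map_sum, LinearMap.sum_apply]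
  apply Finset.sum_congr rfl
  intro k _
  rw [hB]
  simp

/-- uniqueness of the expansion modulo `X ^ q - 1`. -/
theorem twBasis_ker [Nontrivial O] (q : ℕ) (hq : 0 < q) (δ : Module.End O N) (e : ι → N)
    (B : Module.Basis (Fin q × ι) O N) (hB : ∀ z, B z = (δ ^ (z.1 : ℕ)) (e z.2))
    (hδ : δ ^ q = 1) (f : ι → O[X]) (hf : ∑ i, (aeval δ (f i)) (e i) = 0) (i : ι) :
    ∃ g : O[X], f i = (X ^ q - 1) * g := by
  have hmonic : (X ^ q - 1 : O[X]).Monic := by
    have := monic_X_pow_sub_C (1 : O) hq.ne'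
    simpa using this
  have hdeg : (X ^ q - 1 : O[X]).natDegree = q := by
    have := natDegree_X_pow_sub_C (R := O) (n := q) (r := 1)
    simpa using this
  have hne1 : (X ^ q - 1 : O[X]) ≠ 1 := by
    intro h
    have := congrArg natDegree h
    rw [hdeg, natDegree_one] at this
    omega
  have hae : aeval δ (X ^ q - 1 : O[X]) = 0 := by simp [hδ]
  have hr : ∀ i, aeval δ (f i) = aeval δ (f i %ₘ (X ^ q - 1)) := by
    intro i
    conv_lhs => rw [← modByMonic_add_div (f i) (X ^ q - 1)]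
    rw [map_add, map_mul, hae, zero_mul, add_zero]
  have hrdeg : ∀ i, (f i %ₘ (X ^ q - 1)).natDegree < q := by
    intro i
    have := natDegree_modByMonic_lt (f i) hmonic hne1
    rwa [hdeg] at this
  have hsum : ∑ z : Fin q × ι, (f z.2 %ₘ (X ^ q - 1)).coeff (z.1 : ℕ) • B z = 0 := by
    rw [Fintype.sum_prod_type_right, ← hf]
    apply Finset.sum_congr rfl
    intro i _
    rw [hr i, aeval_eq_sum_range' (hrdeg i), LinearMap.sum_apply, Finset.sum_range]
    apply Finset.sum_congr rfl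
    intro k _
    rw [hB]
    rfl
  have hcoef := Fintype.linearIndependent_iff.1 B.linearIndependent _ hsum
  have hzero : f i %ₘ (X ^ q - 1) = 0 := by
    ext k
    rw [coeff_zero]
    by_cases hk : k < q
    · exact hcoef (⟨k, hk⟩, i)
    · exact coeff_eq_zero_of_natDegree_lt (lt_of_lt_of_le (hrdeg i) (not_lt.mp hk))
  refine ⟨f i /ₘ (X ^ q - 1), ?_⟩
  conv_lhs => rw [← modByMonic_add_div (f i) (X ^ q - 1)]
  rw [hzero, zero_add]

/-- `ker F(δ) ⊆ range G(δ)` if `F G = X ^ q - 1`, `F` monic. -/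
theorem twBasis_ker_range [Nontrivial O] (q : ℕ) (hq : 0 < q) (δ : Module.End O N) (e : ι → N)
    (B : Module.Basis (Fin q × ι) O N) (hB : ∀ z, B z = (δ ^ (z.1 : ℕ)) (e z.2))
    (hδ : δ ^ q = 1) (F G : O[X]) (hF : F.Monic) (hFG : F * G = X ^ q - 1)
    (x : N) (hx : aeval δ F x = 0) : ∃ y, x = aeval δ G y := by
  obtain ⟨f, hf⟩ := twBasis_expand q δ e B hB x
  have h1 : ∑ i, (aeval δ (F * f i)) (e i) = 0 := by
    rw [← hx, hf, map_sum]
    apply Finset.sum_congr rfl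
    intro i _
    rw [map_mul]; rfl
  have h2 := twBasis_ker q hq δ e B hB hδ (fun i => F * f i) h1
  choose g hg using h2
  have h3 : ∀ i, f i = G * g i := by
    intro i
    have := hg i
    rw [← hFG, mul_assoc] at this
    exact hF.isRegular.left this
  refine ⟨∑ i, (aeval δ (g i)) (e i), ?_⟩
  rw [hf, map_sum]
  apply Finset.sum_congr rfl
  intro i _
  rw [h3 i, map_mul]; rfl

end Basis

section Basis2

variable {O N ι : Type*} [CommRing O] [AddCommGroup N] [Module O N]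

/-- `δ ^ m (e i)` is a basis vector. -/
theorem twBasis_pow (q : ℕ) (hq : 0 < q) (δ : Module.End O N) (e : ι → N)
    (B : Module.Basis (Fin q × ι) O N) (hB : ∀ z, B z = (δ ^ (z.1 : ℕ)) (e z.2))
    (hδ : δ ^ q = 1) (m : ℕ) (i : ι) :
    (δ ^ m) (e i) = B (⟨m % q, Nat.mod_lt _ hq⟩, i) := by
  rw [hB, pow_eq_pow_mod m hδ]

/-- the quotient `V = (U - 1) / (δ - 1)` on a module with a basis `δ ^ k (e i)`. -/
theorem twBasis_exists_V (q : ℕ) (hq : 0 < q) (δ U : Module.End O N) (hδU : Commute δ U)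
    (e : ι → N) (B : Module.Basis (Fin q × ι) O N) (hB : ∀ z, B z = (δ ^ (z.1 : ℕ)) (e z.2))
    (hδ : δ ^ q = 1) (T : ∀ x : N, ∃ y : N, (U - 1) x = (δ - 1) y) :
    ∃ V : Module.End O N, Commute δ V ∧ (δ - 1) * V = U - 1 := by
  choose v hv using fun i => T (e i)
  obtain ⟨V, hV⟩ : ∃ V : Module.End O N, ∀ z, V (B z) = (δ ^ (z.1 : ℕ)) (v z.2) :=
    ⟨B.constr O (fun z => (δ ^ (z.1 : ℕ)) (v z.2)), fun z => B.constr_basis O _ z⟩
  have hVpow : ∀ (m : ℕ) (i : ι), V ((δ ^ m) (e i)) = (δ ^ m) (v i) := by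
    intro m i
    rw [twBasis_pow q hq δ e B hB hδ m i, hV, ← pow_eq_pow_mod m hδ]
  have hcomm : Commute δ V := by
    apply B.ext
    intro z
    rw [Module.End.mul_apply, Module.End.mul_apply, hV, hB]
    have h1 : δ ((δ ^ (z.1 : ℕ)) (e z.2)) = (δ ^ ((z.1 : ℕ) + 1)) (e z.2) := by
      rw [pow_succ', Module.End.mul_apply]
    rw [h1, hVpow, pow_succ', Module.End.mul_apply]
  refine ⟨V, hcomm, ?_⟩
  apply B.ext
  intro z
  have hc : Commute (δ ^ (z.1 : ℕ)) (δ - 1) :=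
    ((Commute.refl δ).pow_left _).sub_right (Commute.one_right _)
  have hc2 : Commute (δ ^ (z.1 : ℕ)) (U - 1) :=
    (hδU.pow_left _).sub_right (Commute.one_right _)
  rw [Module.End.mul_apply, hV, hB]
  calc (δ - 1) ((δ ^ (z.1 : ℕ)) (v z.2)) = ((δ - 1) * δ ^ (z.1 : ℕ)) (v z.2) := rfl
    _ = (δ ^ (z.1 : ℕ) * (δ - 1)) (v z.2) := by rw [hc.eq]
    _ = (δ ^ (z.1 : ℕ)) ((δ - 1) (v z.2)) := rfl
    _ = (δ ^ (z.1 : ℕ)) ((U - 1) (e z.2)) := by rw [hv]
    _ = (δ ^ (z.1 : ℕ) * (U - 1)) (e z.2) := rfl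
    _ = ((U - 1) * δ ^ (z.1 : ℕ)) (e z.2) := by rw [hc2.eq]
    _ = (U - 1) ((δ ^ (z.1 : ℕ)) (e z.2)) := rfl

/-- **TW-ALG**, basis form. -/
theorem twAlg_basis [Finite ι] (p : ℕ) (hp : p.Prime) (hp2 : p ≠ 2)
    (hpO : (p : O) ∈ Ideal.jacobson (⊥ : Ideal O))
    (hpnzd : ∀ c : O, (p : O) * c = 0 → c = 0)
    (n a : ℕ) (δ U : Module.End O N) (hδU : Commute δ U)
    (hδ : δ ^ (p ^ (n + 1)) = 1) (hU : U ^ (p ^ a) = 1)
    (e : ι → N) (B : Module.Basis (Fin (p ^ (n + 1)) × ι) O N)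
    (hB : ∀ z, B z = (δ ^ (z.1 : ℕ)) (e z.2))
    (T : ∀ x : N, ∃ y : N, (U - 1) x = (δ - 1) y)
    (R : ∀ x : N, U x = x → (∑ k ∈ range p, δ ^ k) x = 0 → x = 0) :
    ∀ x : N, ∃ y : N, (δ - 1) x = (U - 1) y := by
  classical
  cases nonempty_fintype ι
  rcases subsingleton_or_nontrivial O with hO | hO
  · intro x
    have := Module.subsingleton O N
    exact ⟨0, Subsingleton.elim _ _⟩
  have hq : 0 < p ^ (n + 1) := pow_pos hp.pos _
  have : Module.Finite O N := Module.Finite.of_basis B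
  have htf : ∀ x : N, (p : O) • x = 0 → x = 0 := by
    intro x hx
    apply B.repr.injective
    ext z
    have := congrArg (fun y => B.repr y z) hx
    simp only [map_smul, Finsupp.smul_apply, smul_eq_mul, map_zero, Finsupp.zero_apply] at this
    simpa using hpnzd _ this
  obtain ⟨V, hδV, hV⟩ := twBasis_exists_V (p ^ (n + 1)) hq δ U hδU e B hB hδ T
  have hU' : (1 + (δ - 1) * V) ^ (p ^ a) = 1 := by
    rw [hV, add_sub_cancel, hU]
  have hG : (∑ k ∈ range p, (X : O[X]) ^ k).Monic := monic_geom_sum_X hp.ne_zero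
  have hFG : ((X - 1) * ∑ j ∈ range (p ^ n), (X : O[X]) ^ (p * j)) * (∑ k ∈ range p, (X : O[X]) ^ k)
      = X ^ (p ^ (n + 1)) - 1 := by
    have h1 : (∑ k ∈ range p, (X : O[X]) ^ k) * (X - 1) = X ^ p - 1 := geom_sum_mul X p
    have h2 : (∑ j ∈ range (p ^ n), (X : O[X]) ^ (p * j)) * (X ^ p - 1) = X ^ (p ^ (n + 1)) - 1 := by
      have := geom_sum_mul ((X : O[X]) ^ p) (p ^ n)
      rw [← pow_mul, ← pow_succ'] at this
      rw [← this]
      congr 1
      apply Finset.sum_congr rfl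
      intro j _
      rw [pow_mul]
    rw [← h2, ← h1]; ring
  have hF : ((X - 1) * ∑ j ∈ range (p ^ n), (X : O[X]) ^ (p * j)).Monic := by
    apply Monic.of_mul_monic_right hG
    rw [hFG]
    have := monic_X_pow_sub_C (1 : O) hq.ne'
    simpa using this
  have H1 : ∀ x : N, ((δ - 1) * ∑ j ∈ range (p ^ n), δ ^ (p * j)) x = 0 →
      ∃ y : N, x = (∑ k ∈ range p, δ ^ k) y := by
    intro x hx
    obtain ⟨y, hy⟩ := twBasis_ker_range (p ^ (n + 1)) hq δ e B hB hδ _ _ hF hFG x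
      (by simpa using hx)
    exact ⟨y, by simpa using hy⟩
  have R' : ∀ x : N, ((δ - 1) * V) x = 0 → (∑ k ∈ range p, δ ^ k) x = 0 → x = 0 := by
    intro x hx1 hx2
    apply R x _ hx2
    rw [hV] at hx1
    have : U x - x = 0 := hx1
    exact sub_eq_zero.mp this
  have hsurj := twAlg_op p hp hp2 hpO htf δ V hδV n a hδ hU' H1 R'
  intro x
  obtain ⟨y, rfl⟩ := hsurj x
  exact ⟨y, by rw [← hV]; rfl⟩

/-- **TW-ALG**, basis form, as an equality of submodules. -/
theorem twAlg_basis_range [Finite ι] (p : ℕ) (hp : p.Prime) (hp2 : p ≠ 2)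
    (hpO : (p : O) ∈ Ideal.jacobson (⊥ : Ideal O))
    (hpnzd : ∀ c : O, (p : O) * c = 0 → c = 0)
    (n a : ℕ) (δ U : Module.End O N) (hδU : Commute δ U)
    (hδ : δ ^ (p ^ (n + 1)) = 1) (hU : U ^ (p ^ a) = 1)
    (e : ι → N) (B : Module.Basis (Fin (p ^ (n + 1)) × ι) O N)
    (hB : ∀ z, B z = (δ ^ (z.1 : ℕ)) (e z.2))
    (T : LinearMap.range (U - 1) ≤ LinearMap.range (δ - 1))
    (R : ∀ x : N, U x = x → (∑ k ∈ range p, δ ^ k) x = 0 → x = 0) :
    LinearMap.range (U - 1) = LinearMap.range (δ - 1) := by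
  apply le_antisymm T
  rintro _ ⟨x, rfl⟩
  have T' : ∀ x : N, ∃ y : N, (U - 1) x = (δ - 1) y := by
    intro x
    obtain ⟨y, hy⟩ := T ⟨x, rfl⟩
    exact ⟨y, hy.symm⟩
  obtain ⟨y, hy⟩ := twAlg_basis p hp hp2 hpO hpnzd n a δ U hδU hδ hU e B hB T' R x
  exact ⟨y, hy.symm⟩

end Basis2

section Transfer

variable {O N ι : Type*} [CommRing O] [AddCommGroup N] [Module O N]

/-- Basis transfer: if `(δ - 1) N ⊆ (U - 1) N` and `U ^ (p ^ m) = 1`, then `U ^ k (e i)` is a basis. -/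
theorem twBasis_transfer [Finite ι] (p : ℕ) (hp : p.Prime) (hp2 : p ≠ 2)
    (hpO : (p : O) ∈ Ideal.jacobson (⊥ : Ideal O))
    (m : ℕ) (δ U : Module.End O N)
    (hU : U ^ (p ^ m) = 1)
    (e : ι → N) (B : Module.Basis (Fin (p ^ m) × ι) O N)
    (hB : ∀ z, B z = (δ ^ (z.1 : ℕ)) (e z.2))
    (hrange : ∀ x : N, ∃ y : N, (δ - 1) x = (U - 1) y) :
    ∃ B' : Module.Basis (Fin (p ^ m) × ι) O N, ∀ z, B' z = (U ^ (z.1 : ℕ)) (e z.2) := by
  classical
  cases nonempty_fintype ι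
  have hq : 0 < p ^ m := pow_pos hp.pos _
  have : Module.Finite O N := Module.Finite.of_basis B
  obtain ⟨F, hF⟩ : ∃ F : Module.End O N, ∀ z, F (B z) = (U ^ (z.1 : ℕ)) (e z.2) :=
    ⟨B.constr O (fun z => (U ^ (z.1 : ℕ)) (e z.2)), fun z => B.constr_basis O _ z⟩
  -- the range of F
  have hFpow : ∀ (k : ℕ) (i : ι), (U ^ k) (e i) ∈ LinearMap.range F := by
    intro k i
    refine ⟨B (⟨k % p ^ m, Nat.mod_lt _ hq⟩, i), ?_⟩
    rw [hF, ← pow_eq_pow_mod k hU]
  have hFrange : ∀ y ∈ LinearMap.range F, ∃ c : Fin (p ^ m) × ι → O,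
      y = ∑ z, c z • (U ^ (z.1 : ℕ)) (e z.2) := by
    rintro _ ⟨x, rfl⟩
    refine ⟨fun z => B.repr x z, ?_⟩
    conv_lhs => rw [← B.sum_repr x]
    rw [map_sum]
    apply Finset.sum_congr rfl
    intro z _
    rw [map_smul, hF]
  have hstabU : ∀ y ∈ LinearMap.range F, U y ∈ LinearMap.range F := by
    intro y hy
    obtain ⟨c, rfl⟩ := hFrange y hy
    rw [map_sum]
    apply Submodule.sum_mem
    intro z _
    rw [map_smul]
    apply Submodule.smul_mem
    have : U ((U ^ (z.1 : ℕ)) (e z.2)) = (U ^ ((z.1 : ℕ) + 1)) (e z.2) := by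
      rw [pow_succ', Module.End.mul_apply]
    rw [this]
    exact hFpow _ _
  have hstab1 : ∀ y ∈ LinearMap.range F, (U - 1) y ∈ LinearMap.range F := by
    intro y hy
    exact Submodule.sub_mem _ (hstabU y hy) hy
  have hstab : ∀ (k : ℕ), ∀ y ∈ LinearMap.range F, ((U - 1) ^ k) y ∈ LinearMap.range F := by
    intro k
    induction k with
    | zero => intro y hy; simpa using hy
    | succ k ih =>
      intro y hy
      rw [pow_succ, Module.End.mul_apply]
      exact ih _ (hstab1 y hy)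
  -- N = span e + (U - 1) N
  have hA : ∀ x : N, ∃ s ∈ LinearMap.range F, ∃ w : N, x = s + (U - 1) w := by
    have htop : (⊤ : Submodule O N) ≤ LinearMap.range F ⊔ LinearMap.range (U - 1) := by
      rw [← B.span_eq, Submodule.span_le]
      rintro _ ⟨z, rfl⟩
      rw [hB]
      have h1 : (δ ^ (z.1 : ℕ)) (e z.2) = e z.2 + (δ - 1) ((∑ j ∈ range (z.1 : ℕ), δ ^ j) (e z.2)) := by
        have h2 : (δ - 1) * (∑ j ∈ range (z.1 : ℕ), δ ^ j) = δ ^ (z.1 : ℕ) - 1 := mul_geom_sum δ _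
        have h3 : (δ - 1) ((∑ j ∈ range (z.1 : ℕ), δ ^ j) (e z.2)) =
            ((δ - 1) * (∑ j ∈ range (z.1 : ℕ), δ ^ j)) (e z.2) := rfl
        rw [h3, h2, LinearMap.sub_apply, Module.End.one_apply]
        abel
      rw [h1]
      obtain ⟨y, hy⟩ := hrange ((∑ j ∈ range (z.1 : ℕ), δ ^ j) (e z.2))
      rw [hy]
      apply Submodule.add_mem_sup
      · have := hFpow 0 z.2
        simpa using this
      · exact ⟨y, rfl⟩
    intro x
    obtain ⟨s, hs, t, ⟨w, rfl⟩, hx⟩ := Submodule.mem_sup.mp (htop (Submodule.mem_top (x := x)))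
    exact ⟨s, hs, w, hx.symm⟩
  have hiter : ∀ (k : ℕ) (x : N), ∃ s ∈ LinearMap.range F, ∃ w : N, x = s + ((U - 1) ^ k) w := by
    intro k
    induction k with
    | zero => intro x; exact ⟨0, Submodule.zero_mem _, x, by simp⟩
    | succ k ih =>
      intro x
      obtain ⟨s, hs, w, hx⟩ := ih x
      obtain ⟨s', hs', w', hw⟩ := hA w
      refine ⟨s + ((U - 1) ^ k) s', Submodule.add_mem _ hs (hstab k s' hs'), w', ?_⟩
      rw [hx, hw, map_add, pow_succ, Module.End.mul_apply]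
      abel
  -- (U - 1) ^ q is divisible by p
  obtain ⟨r, hr⟩ : ∃ r : Module.End O N, (U - 1) ^ (p ^ m) = (p : O) • r := by
    have hc : Commute U (-1 : Module.End O N) := (Commute.one_right U).neg_right
    obtain ⟨r, hr⟩ := hc.exists_add_pow_prime_pow_eq hp m
    rcases Nat.eq_zero_or_pos m with hm | hm
    · subst hm
      refine ⟨0, ?_⟩
      rw [pow_zero, pow_one] at hU ⊢
      rw [hU, sub_self, smul_zero]
    · have hodd : Odd (p ^ m) := (hp.odd_of_ne_two hp2).pow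
      rw [hodd.neg_one_pow, hU] at hr
      refine ⟨U * (-1) * r, ?_⟩
      rw [sub_eq_add_neg, hr, Nat.cast_smul_eq_nsmul, nsmul_eq_mul]
      noncomm_ring
  have hsurj : Function.Surjective F := by
    apply tw_surj_of_nak (p : O) hpO F
    intro x
    obtain ⟨s, ⟨y, rfl⟩, w, hx⟩ := hiter (p ^ m) x
    refine ⟨y, r w, ?_⟩
    rw [hx, hr]
    rfl
  have hinj : Function.Injective F := OrzechProperty.injective_of_surjective_endomorphism F hsurj
  have hbij : Function.Bijective F := ⟨hinj, hsurj⟩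
  refine ⟨B.map (LinearEquiv.ofBijective F hbij), ?_⟩
  intro z
  rw [Module.Basis.map_apply]
  exact hF z

end Transfer

section Main

variable {O N ι : Type*} [CommRing O] [AddCommGroup N] [Module O N]

/-- **TW-ALG** (packaged).  `N` has an `O`-basis `δ ^ k (e i)`, `k < p ^ (n+1)` (i.e. `N` is free over
`O[⟨δ⟩]`, `δ` of order `p ^ (n+1)`), `U` commutes with `δ`, `U ^ (p ^ (n+1)) = 1`,
(T) `(U - 1) N ⊆ (δ - 1) N`, (R) `U x = x` and `(1 + δ + ... + δ^(p-1)) x = 0` imply `x = 0`.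
Then `(U - 1) N = (δ - 1) N` and `U ^ k (e i)` is an `O`-basis of `N`. -/
theorem twAlg [Finite ι] (p : ℕ) (hp : p.Prime) (hp2 : p ≠ 2)
    (hpO : (p : O) ∈ Ideal.jacobson (⊥ : Ideal O))
    (hpnzd : ∀ c : O, (p : O) * c = 0 → c = 0)
    (n : ℕ) (δ U : Module.End O N) (hδU : Commute δ U)
    (hδ : δ ^ (p ^ (n + 1)) = 1) (hU : U ^ (p ^ (n + 1)) = 1)
    (e : ι → N) (B : Module.Basis (Fin (p ^ (n + 1)) × ι) O N)
    (hB : ∀ z, B z = (δ ^ (z.1 : ℕ)) (e z.2))
    (T : LinearMap.range (U - 1) ≤ LinearMap.range (δ - 1))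
    (R : ∀ x : N, U x = x → (∑ k ∈ range p, δ ^ k) x = 0 → x = 0) :
    LinearMap.range (U - 1) = LinearMap.range (δ - 1) ∧
      ∃ B' : Module.Basis (Fin (p ^ (n + 1)) × ι) O N, ∀ z, B' z = (U ^ (z.1 : ℕ)) (e z.2) := by
  have h1 := twAlg_basis_range p hp hp2 hpO hpnzd n (n + 1) δ U hδU hδ hU e B hB T R
  refine ⟨h1, ?_⟩
  apply twBasis_transfer p hp hp2 hpO (n + 1) δ U hU e B hB
  intro x
  have : (δ - 1) x ∈ LinearMap.range (U - 1) := by rw [h1]; exact ⟨x, rfl⟩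
  obtain ⟨y, hy⟩ := this
  exact ⟨y, hy.symm⟩

end Main

end Fermat.Agent.S59.H314
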