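import Fermat.Agent.S59.H314.TwAlg

set_option autoImplicit false

namespace Fermat.Agent.S59.H314

open Polynomial Finset

section AnyExp

variable {O N ι : Type*} [CommRing O] [AddCommGroup N] [Module O N]

/-- `twAlg_basis_range` for an arbitrary exponent `m` (the case `m = 0` is trivial). -/
theorem twAlg_basis_range' [Finite ι] (p : ℕ) (hp : p.Prime) (hp2 : p ≠ 2)
    (hpO : (p : O) ∈ Ideal.jacobson (⊥ : Ideal O))
    (hpnzd : ∀ c : O, (p : O) * c = 0 → c = 0)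
    (m a : ℕ) (δ U : Module.End O N) (hδU : Commute δ U)
    (hδ : δ ^ (p ^ m) = 1) (hU : U ^ (p ^ a) = 1)
    (e : ι → N) (B : Module.Basis (Fin (p ^ m) × ι) O N)
    (hB : ∀ z, B z = (δ ^ (z.1 : ℕ)) (e z.2))
    (T : LinearMap.range (U - 1) ≤ LinearMap.range (δ - 1))
    (R : ∀ x : N, U x = x → (∑ k ∈ range p, δ ^ k) x = 0 → x = 0) :
    LinearMap.range (U - 1) = LinearMap.range (δ - 1) := by
  rcases Nat.eq_zero_or_pos m with hm | hm
  · subst hm
    rw [pow_zero, pow_one] at hδ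
    apply le_antisymm T
    rw [hδ, sub_self, LinearMap.range_zero]
    exact bot_le
  · obtain ⟨n, rfl⟩ : ∃ n, m = n + 1 := ⟨m - 1, by omega⟩
    exact twAlg_basis_range p hp hp2 hpO hpnzd n a δ U hδU hδ hU e B hB T R

end AnyExp

section Core

/-- **CMPA, core** (Mathlib only; the hypotheses `hX`, `hb` are those of `TW.AlgStatement`):
(T) + (R) give the range equality for the prime `j`. -/
theorem twCmp_core (p : ℕ) (hp : p.Prime) (hp2 : p ≠ 2) (𝒪 : Type*) [CommRing 𝒪]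
    (hpJ : (p : 𝒪) ∈ Ideal.jacobson (⊥ : Ideal 𝒪)) (hpnzd : ∀ c : 𝒪, (p : 𝒪) * c = 0 → c = 0)
    (T : Type*) [CommRing T] [Algebra 𝒪 T] (V : Type*) [AddCommGroup V] [Module T V]
    (r : ℕ) (G : Fin r → Type*) [∀ j, CommGroup (G j)] (m : Fin r → ℕ)
    (dia : (∀ j : Fin r, G j) →* Module.End T V) (g : ∀ j : Fin r, G j)
    (hX : ∀ j, dia (Pi.mulSingle j (g j)) ^ (p ^ m j) = 1)
    (d : ℕ) (b : Fin d → V)
    (hb : ∀ y : V, ∃! c : Fin d → (∀ j : Fin r, Fin (p ^ m j)) → 𝒪,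
      y = ∑ i, ∑ e, algebraMap 𝒪 T (c i e) • dia (fun j => g j ^ (e j : ℕ)) (b i))
    (j : Fin r) (w : T) (a : ℕ) (hw : w ^ (p ^ a) = 1)
    (hT : ∀ y : V, ∃ y' : V, w • y - y = dia (Pi.mulSingle j (g j)) y' - y')
    (hR : ∀ y : V, w • y = y →
      (∑ k ∈ Finset.range p, dia (Pi.mulSingle j (g j)) ^ k) y = 0 → y = 0) :
    ∀ y : V, (∃ y' : V, y = w • y' - y') ↔ ∃ y' : V, y = dia (Pi.mulSingle j (g j)) y' - y' := by
  classical
  let _inst : Module 𝒪 V := Module.compHom V (algebraMap 𝒪 T)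
  have hsm : ∀ (c : 𝒪) (v : V), c • v = algebraMap 𝒪 T c • v := fun _ _ => rfl
  have _tower : IsScalarTower 𝒪 T V := ⟨fun c t v => by
    show (c • t) • v = algebraMap 𝒪 T c • (t • v)
    rw [Algebra.smul_def, mul_smul]⟩
  obtain ⟨δT, hδT⟩ : ∃ δT : Module.End T V, δT = dia (Pi.mulSingle j (g j)) := ⟨_, rfl⟩
  rw [← hδT] at hT hR ⊢
  have hXj : δT ^ (p ^ m j) = 1 := by rw [hδT]; exact hX j
  obtain ⟨δ, hδ⟩ : ∃ δ : Module.End 𝒪 V, ∀ y, δ y = δT y := ⟨δT.restrictScalars 𝒪, fun _ => rfl⟩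
  obtain ⟨U, hU⟩ : ∃ U : Module.End 𝒪 V, ∀ y, U y = w • y :=
    ⟨Algebra.lsmul 𝒪 𝒪 V w, fun _ => rfl⟩
  have hδpow : ∀ (k : ℕ) (y : V), (δ ^ k) y = (δT ^ k) y := by
    intro k
    induction k with
    | zero => intro y; simp
    | succ k ih => intro y; rw [pow_succ, pow_succ, Module.End.mul_apply, Module.End.mul_apply, hδ, ih]
  have hUpow : ∀ (k : ℕ) (y : V), (U ^ k) y = (w ^ k) • y := by
    intro k
    induction k with
    | zero => intro y; simp
    | succ k ih => intro y; rw [pow_succ, pow_succ, Module.End.mul_apply, hU, ih, mul_smul]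
  have hδ1 : δ ^ (p ^ m j) = 1 := by
    ext y
    rw [hδpow, hXj]
    rfl
  have hU1 : U ^ (p ^ a) = 1 := by
    ext y
    rw [hUpow, hw, one_smul, Module.End.one_apply]
  have hcomm : Commute δ U := by
    ext y
    rw [Module.End.mul_apply, Module.End.mul_apply, hU, hU, hδ, hδ, map_smul]
  -- the basis
  obtain ⟨v, hv⟩ : ∃ v : Fin d × (∀ j : Fin r, Fin (p ^ m j)) → V,
      ∀ z, v z = dia (fun j => g j ^ (z.2 j : ℕ)) (b z.1) := ⟨_, fun _ => rfl⟩
  have hsum : ∀ c : Fin d → (∀ j : Fin r, Fin (p ^ m j)) → 𝒪,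
      (∑ i, ∑ e, algebraMap 𝒪 T (c i e) • dia (fun j => g j ^ (e j : ℕ)) (b i)) =
        ∑ z : Fin d × (∀ j : Fin r, Fin (p ^ m j)), c z.1 z.2 • v z := by
    intro c
    rw [Fintype.sum_prod_type]
    apply Finset.sum_congr rfl
    intro i _
    apply Finset.sum_congr rfl
    intro e _
    rw [hv, hsm]
  have hli : LinearIndependent 𝒪 v := by
    rw [Fintype.linearIndependent_iff]
    intro c hc z
    have h1 : (0 : V) = ∑ i, ∑ e, algebraMap 𝒪 T ((fun i e => c (i, e)) i e) •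
        dia (fun j => g j ^ (e j : ℕ)) (b i) := by
      rw [hsum (fun i e => c (i, e))]
      exact hc.symm
    have h2 : (0 : V) = ∑ i : Fin d, ∑ e : (∀ j : Fin r, Fin (p ^ m j)),
        algebraMap 𝒪 T ((fun (_ : Fin d) (_ : ∀ j : Fin r, Fin (p ^ m j)) => (0 : 𝒪)) i e) •
        dia (fun j => g j ^ (e j : ℕ)) (b i) := by
      simp
    have := (hb 0).unique h1 h2
    exact congrFun (congrFun this z.1) z.2
  have hsp : ⊤ ≤ Submodule.span 𝒪 (Set.range v) := by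
    intro y _
    obtain ⟨c, hc, -⟩ := hb y
    rw [hc, hsum]
    apply Submodule.sum_mem
    intro z _
    exact Submodule.smul_mem _ _ (Submodule.subset_span ⟨z, rfl⟩)
  obtain ⟨B₀, hB₀⟩ : ∃ B₀ : Module.Basis (Fin d × (∀ j : Fin r, Fin (p ^ m j))) 𝒪 V,
      ∀ z, B₀ z = v z := ⟨Module.Basis.mk hli hsp, fun z => by rw [Module.Basis.mk_apply]⟩
  -- regrouping of the index set
  obtain ⟨eqv, heqv⟩ : ∃ eqv : (Fin d × (∀ j : Fin r, Fin (p ^ m j))) ≃
      Fin (p ^ m j) × (Fin d × (∀ j' : {j' : Fin r // j' ≠ j}, Fin (p ^ m j'))),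
      ∀ u, eqv.symm u =
        (u.2.1, (Equiv.piSplitAt j (fun j => Fin (p ^ m j))).symm (u.1, u.2.2)) :=
    ⟨(Equiv.prodCongr (Equiv.refl (Fin d)) (Equiv.piSplitAt j (fun j => Fin (p ^ m j)))).trans
      ((Equiv.prodAssoc _ _ _).symm.trans
        ((Equiv.prodCongr (Equiv.prodComm _ _) (Equiv.refl _)).trans (Equiv.prodAssoc _ _ _))),
      fun u => rfl⟩
  obtain ⟨eι, heι⟩ : ∃ eι : (Fin d × (∀ j' : {j' : Fin r // j' ≠ j}, Fin (p ^ m j'))) → V,
      ∀ u, eι u = dia (fun j' => if h : j' = j then 1 else g j' ^ (u.2 ⟨j', h⟩ : ℕ)) (b u.1) :=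
    ⟨_, fun _ => rfl⟩
  have hB : ∀ z, (B₀.reindex eqv) z = (δ ^ (z.1 : ℕ)) (eι z.2) := by
    intro z
    rw [Module.Basis.reindex_apply, hB₀, hv, heqv, hδpow, heι, hδT]
    rw [← map_pow, ← Module.End.mul_apply, ← map_mul]
    congr 2
    funext j'
    by_cases h : j' = j
    · subst h
      simp [Equiv.piSplitAt_symm_apply]
    · simp [Equiv.piSplitAt_symm_apply, h]
  have hTr : LinearMap.range (U - 1) ≤ LinearMap.range (δ - 1) := by
    rintro _ ⟨y, rfl⟩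
    obtain ⟨y', hy'⟩ := hT y
    refine ⟨y', ?_⟩
    rw [LinearMap.sub_apply, LinearMap.sub_apply, Module.End.one_apply, Module.End.one_apply,
      hU, hδ, hy']
  have hRr : ∀ x : V, U x = x → (∑ k ∈ range p, δ ^ k) x = 0 → x = 0 := by
    intro x hx1 hx2
    apply hR x
    · rw [← hU, hx1]
    · rw [LinearMap.sum_apply] at hx2 ⊢
      rw [← hx2]
      apply Finset.sum_congr rfl
      intro k _
      rw [hδpow]
  have hmain := twAlg_basis_range' p hp hp2 hpJ hpnzd (m j) a δ U hcomm hδ1 hU1 eι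
    (B₀.reindex eqv) hB hTr hRr
  intro y
  constructor
  · rintro ⟨y', rfl⟩
    have : (U - 1) y' ∈ LinearMap.range (δ - 1) := by rw [← hmain]; exact ⟨y', rfl⟩
    obtain ⟨y'', hy''⟩ := this
    refine ⟨y'', ?_⟩
    rw [← hU, ← hδ]
    exact hy''.symm
  · rintro ⟨y', rfl⟩
    have : (δ - 1) y' ∈ LinearMap.range (U - 1) := by rw [hmain]; exact ⟨y', rfl⟩
    obtain ⟨y'', hy''⟩ := this
    refine ⟨y'', ?_⟩
    rw [← hU, ← hδ]
    exact hy''.symm

end Core

end Fermat.Agent.S59.H314
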