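import Fermat.Agent.S59.H314.TwCmp

/-!
# S59, cell TW: hypothesis (T) of TW-ALG from nilpotency  (helper314)

`twT_core`: in the setting of `twCmp_core` (hypotheses `hX`, `hb` of `TW.AlgStatement`), if `w` has finite
`p`-power order and SOME power `(w - 1)^k` maps `V` into `(dia g_j - 1) V`, then `(w - 1) V ⊆ (dia g_j - 1) V`,
i.e. hypothesis (T).  Application: the inertia value `w` at a Taylor–Wiles prime `q_j`; on the
`Δ_{q_j}`-coinvariants the Hecke algebra acts through a level with `q_j ∥ N'`, where inertia is unipotent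
(S34) and `charpoly ρ(σ) = (X - w)(X - w⁻¹)` (INO), so `(w - 1)^2 = 0` there.
-/

set_option autoImplicit false

namespace Fermat.Agent.S59.H314

open Polynomial Finset

section BasisForm

variable {𝒪 T V : Type*} [CommRing 𝒪] [CommRing T] [Algebra 𝒪 T] [AddCommGroup V] [Module T V]
  [Module 𝒪 V] [IsScalarTower 𝒪 T V]

/-- The regrouped basis: from the unique-representation hypothesis `hb` of `TW.AlgStatement` to an
`𝒪`-basis of the form `X_j ^ k (e i)`. -/
theorem twCmp_basis (p : ℕ) (r : ℕ) (G : Fin r → Type*) [∀ j, CommGroup (G j)] (m : Fin r → ℕ)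
    (dia : (∀ j : Fin r, G j) →* Module.End T V) (g : ∀ j : Fin r, G j)
    (d : ℕ) (b : Fin d → V)
    (hb : ∀ y : V, ∃! c : Fin d → (∀ j : Fin r, Fin (p ^ m j)) → 𝒪,
      y = ∑ i, ∑ e, algebraMap 𝒪 T (c i e) • dia (fun j => g j ^ (e j : ℕ)) (b i))
    (j : Fin r) :
    ∃ (e : (Fin d × (∀ j' : {j' : Fin r // j' ≠ j}, Fin (p ^ m j'))) → V)
      (B : Module.Basis (Fin (p ^ m j) × (Fin d × (∀ j' : {j' : Fin r // j' ≠ j}, Fin (p ^ m j'))))
        𝒪 V),
      ∀ z, B z = (dia (Pi.mulSingle j (g j)) ^ (z.1 : ℕ)) (e z.2) := by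
  classical
  have hsm : ∀ (c : 𝒪) (v : V), algebraMap 𝒪 T c • v = c • v := fun c v =>
    algebraMap_smul T c v
  obtain ⟨v, hv⟩ : ∃ v : Fin d × (∀ j : Fin r, Fin (p ^ m j)) → V,
      ∀ z, v z = dia (fun j => g j ^ (z.2 j : ℕ)) (b z.1) := ⟨_, fun _ => rfl⟩
  have hsum : ∀ c : Fin d → (∀ j : Fin r, Fin (p ^ m j)) → 𝒪,
      (∑ i, ∑ e, algebraMap 𝒪 T (c i e) • dia (fun j => g j ^ (e j : ℕ)) (b i)) =
        ∑ z : Fin d × (∀ j : Fin r, Fin (p ^ m j)), c z.1 z.2 • v z := by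
    intro c
    rw [Fintype.sum_prod_type]
    apply Finset.sum_congr rfl
    intro i _
    apply Finset.sum_congr rfl
    intro e _
    rw [hv, hsm]
  have hli : LinearIndependent 𝒪 v := by
    rw [Fintype.linearIndependent_iff]
    intro c hc z
    have h1 : (0 : V) = ∑ i, ∑ e, algebraMap 𝒪 T ((fun i e => c (i, e)) i e) •
        dia (fun j => g j ^ (e j : ℕ)) (b i) := by
      rw [hsum (fun i e => c (i, e))]
      exact hc.symm
    have h2 : (0 : V) = ∑ i : Fin d, ∑ e : (∀ j : Fin r, Fin (p ^ m j)),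
        algebraMap 𝒪 T ((fun (_ : Fin d) (_ : ∀ j : Fin r, Fin (p ^ m j)) => (0 : 𝒪)) i e) •
        dia (fun j => g j ^ (e j : ℕ)) (b i) := by
      simp
    have := (hb 0).unique h1 h2
    exact congrFun (congrFun this z.1) z.2
  have hsp : ⊤ ≤ Submodule.span 𝒪 (Set.range v) := by
    intro y _
    obtain ⟨c, hc, -⟩ := hb y
    rw [hc, hsum]
    apply Submodule.sum_mem
    intro z _
    exact Submodule.smul_mem _ _ (Submodule.subset_span ⟨z, rfl⟩)
  obtain ⟨B₀, hB₀⟩ : ∃ B₀ : Module.Basis (Fin d × (∀ j : Fin r, Fin (p ^ m j))) 𝒪 V,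
      ∀ z, B₀ z = v z := ⟨Module.Basis.mk hli hsp, fun z => by rw [Module.Basis.mk_apply]⟩
  obtain ⟨eqv, heqv⟩ : ∃ eqv : (Fin d × (∀ j : Fin r, Fin (p ^ m j))) ≃
      Fin (p ^ m j) × (Fin d × (∀ j' : {j' : Fin r // j' ≠ j}, Fin (p ^ m j'))),
      ∀ u, eqv.symm u =
        (u.2.1, (Equiv.piSplitAt j (fun j => Fin (p ^ m j))).symm (u.1, u.2.2)) :=
    ⟨(Equiv.prodCongr (Equiv.refl (Fin d)) (Equiv.piSplitAt j (fun j => Fin (p ^ m j)))).trans
      ((Equiv.prodAssoc _ _ _).symm.trans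
        ((Equiv.prodCongr (Equiv.prodComm _ _) (Equiv.refl _)).trans (Equiv.prodAssoc _ _ _))),
      fun u => rfl⟩
  refine ⟨fun u => dia (fun j' => if h : j' = j then 1 else g j' ^ (u.2 ⟨j', h⟩ : ℕ)) (b u.1),
    B₀.reindex eqv, ?_⟩
  intro z
  rw [Module.Basis.reindex_apply, hB₀, hv, heqv]
  rw [← map_pow, ← Module.End.mul_apply, ← map_mul]
  congr 2
  funext j'
  by_cases h : j' = j
  · subst h
    simp [Equiv.piSplitAt_symm_apply]
  · simp [Equiv.piSplitAt_symm_apply, h]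

end BasisForm

section TCore

/-- **(T) from nilpotency** (Mathlib only; setting of `twCmp_core`). -/
theorem twT_core (p : ℕ) (hp : p.Prime) (𝒪 : Type*) [CommRing 𝒪]
    (hpnzd : ∀ c : 𝒪, (p : 𝒪) * c = 0 → c = 0)
    (T : Type*) [CommRing T] [Algebra 𝒪 T] (V : Type*) [AddCommGroup V] [Module T V]
    (r : ℕ) (G : Fin r → Type*) [∀ j, CommGroup (G j)] (m : Fin r → ℕ)
    (dia : (∀ j : Fin r, G j) →* Module.End T V) (g : ∀ j : Fin r, G j)
    (hX : ∀ j, dia (Pi.mulSingle j (g j)) ^ (p ^ m j) = 1)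
    (d : ℕ) (b : Fin d → V)
    (hb : ∀ y : V, ∃! c : Fin d → (∀ j : Fin r, Fin (p ^ m j)) → 𝒪,
      y = ∑ i, ∑ e, algebraMap 𝒪 T (c i e) • dia (fun j => g j ^ (e j : ℕ)) (b i))
    (j : Fin r) (w : T) (a : ℕ) (hw : w ^ (p ^ a) = 1) (k : ℕ)
    (hk : ∀ y : V, ∃ y' : V, (w - 1) ^ k • y = dia (Pi.mulSingle j (g j)) y' - y') :
    ∀ y : V, ∃ y' : V, w • y - y = dia (Pi.mulSingle j (g j)) y' - y' := by
  classical
  let _inst : Module 𝒪 V := Module.compHom V (algebraMap 𝒪 T)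
  have _tower : IsScalarTower 𝒪 T V := ⟨fun c t v => by
    show (c • t) • v = algebraMap 𝒪 T c • (t • v)
    rw [Algebra.smul_def, mul_smul]⟩
  rcases subsingleton_or_nontrivial 𝒪 with h𝒪 | h𝒪
  · intro y
    have : Subsingleton V := Module.subsingleton 𝒪 V
    exact ⟨0, Subsingleton.elim _ _⟩
  obtain ⟨e, B, hB⟩ := twCmp_basis (𝒪 := 𝒪) p r G m dia g d b hb j
  obtain ⟨δT, hδT⟩ : ∃ δT : Module.End T V, δT = dia (Pi.mulSingle j (g j)) := ⟨_, rfl⟩
  rw [← hδT] at hk hB ⊢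
  have hXj : δT ^ (p ^ m j) = 1 := by rw [hδT]; exact hX j
  obtain ⟨δ, hδ⟩ : ∃ δ : Module.End 𝒪 V, ∀ y, δ y = δT y := ⟨δT.restrictScalars 𝒪, fun _ => rfl⟩
  have hδpow : ∀ (k : ℕ) (y : V), (δ ^ k) y = (δT ^ k) y := by
    intro k
    induction k with
    | zero => intro y; simp
    | succ k ih =>
      intro y
      rw [pow_succ, pow_succ, Module.End.mul_apply, Module.End.mul_apply, hδ, ih]
  have hδ1 : δ ^ (p ^ m j) = 1 := by
    ext y
    rw [hδpow, hXj]
    rfl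
  have hB' : ∀ z, B z = (δ ^ (z.1 : ℕ)) (e z.2) := by
    intro z
    rw [hB, hδpow]
  have hq : 0 < p ^ m j := pow_pos hp.pos _
  -- torsion-freeness
  have htf : ∀ x : V, (p : 𝒪) • x = 0 → x = 0 := by
    intro x hx
    apply B.repr.injective
    ext z
    have := congrArg (fun y => B.repr y z) hx
    simp only [map_smul, Finsupp.smul_apply, smul_eq_mul, map_zero, Finsupp.zero_apply] at this
    simpa using hpnzd _ this
  -- F1
  have hF : (∑ i ∈ range (p ^ m j), (X : 𝒪[X]) ^ i).Monic := monic_geom_sum_X hq.ne'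
  have hFG : (∑ i ∈ range (p ^ m j), (X : 𝒪[X]) ^ i) * (X - 1) = X ^ (p ^ m j) - 1 :=
    geom_sum_mul X _
  have hpT : ∀ y : V, (p : T) • y = (p : 𝒪) • y := by
    intro y
    rw [Nat.cast_smul_eq_nsmul, Nat.cast_smul_eq_nsmul]
  have F1 : ∀ y z : V, (p : T) • y = δT z - z → ∃ y' : V, y = δT y' - y' := by
    intro y z hyz
    have h1 : aeval δ (∑ i ∈ range (p ^ m j), (X : 𝒪[X]) ^ i) y = 0 := by
      apply htf
      rw [← map_smul, ← hpT, hyz]
      have h2 : δT z - z = aeval δ (X - 1 : 𝒪[X]) z := by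
        simp [hδ]
      rw [h2, ← Module.End.mul_apply, ← map_mul, hFG]
      simp [hδ1]
    obtain ⟨y', hy'⟩ := twBasis_ker_range (p ^ m j) hq δ e B hB' hδ1 _ _ hF hFG y h1
    refine ⟨y', ?_⟩
    rw [hy']
    simp [hδ]
  have F1s : ∀ (s : ℕ) (y z : V), (p : T) ^ s • y = δT z - z → ∃ y' : V, y = δT y' - y' := by
    intro s
    induction s with
    | zero => intro y z h; exact ⟨z, by simpa using h⟩
    | succ s ih =>
      intro y z h
      rw [pow_succ', mul_smul] at h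
      obtain ⟨z', hz'⟩ := F1 _ _ h
      exact ih y z' hz'
  -- binomial expansion
  obtain ⟨c, hc⟩ : ∃ c : T, (p : T) ^ a * (w - 1) = (w - 1) ^ 2 * c := by
    have hbin : ∀ (u : T) (n : ℕ), ∃ c : T, (1 + u) ^ n = 1 + (n : T) * u + u ^ 2 * c := by
      intro u n
      induction n with
      | zero => exact ⟨0, by simp⟩
      | succ n ih =>
        obtain ⟨c, hc⟩ := ih
        refine ⟨(n : T) + c + c * u, ?_⟩
        rw [pow_succ, hc]
        push_cast
        ring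
    obtain ⟨c, hc⟩ := hbin (w - 1) (p ^ a)
    refine ⟨-c, ?_⟩
    have : (1 + (w - 1)) ^ (p ^ a) = 1 := by rw [add_sub_cancel, hw]
    rw [this] at hc
    push_cast at hc
    linear_combination -hc
  -- the range is stable under T
  have hstab : ∀ (t : T) (y : V), (∃ y' : V, y = δT y' - y') → ∃ y' : V, t • y = δT y' - y' := by
    rintro t _ ⟨y', rfl⟩
    exact ⟨t • y', by rw [smul_sub, map_smul]⟩
  -- descending induction
  have hdesc : ∀ (n : ℕ), (∀ y : V, ∃ y' : V, (w - 1) ^ (n + 2) • y = δT y' - y') →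
      ∀ y : V, ∃ y' : V, (w - 1) ^ (n + 1) • y = δT y' - y' := by
    intro n hn y
    obtain ⟨z, hz⟩ := hn (c • y)
    apply F1s a _ z
    rw [← hz, ← mul_smul, ← mul_smul]
    congr 1
    rw [pow_succ, ← mul_assoc, mul_comm ((p : T) ^ a), mul_assoc, hc]
    ring
  have hall : ∀ (n : ℕ), (∀ y : V, ∃ y' : V, (w - 1) ^ (n + 1) • y = δT y' - y') →
      ∀ y : V, ∃ y' : V, (w - 1) • y = δT y' - y' := by
    intro n
    induction n with
    | zero => intro h y; simpa using h y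
    | succ n ih => intro h; exact ih (hdesc n h)
  intro y
  have h1 : ∃ y' : V, (w - 1) • y = δT y' - y' := by
    rcases Nat.eq_zero_or_pos k with hk0 | hk0
    · subst hk0
      obtain ⟨z, hz⟩ := hk y
      rw [pow_zero, one_smul] at hz
      exact hstab (w - 1) y ⟨z, hz⟩
    · obtain ⟨n, rfl⟩ : ∃ n, k = n + 1 := ⟨k - 1, by omega⟩
      exact hall n hk y
  obtain ⟨y', hy'⟩ := h1
  exact ⟨y', by rw [← hy', sub_smul, one_smul]⟩

end TCore

end Fermat.Agent.S59.H314
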